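import Fermat.Agent.AVn.Stmts
import Fermat.Agent.AVFin.Tr

/-!
# The transcendence degree of `k(a)/k`
-/

set_option autoImplicit false

noncomputable section

universe u

open IntermediateField Module Cardinal
open Fermat.Agent.BaseChangeFF Fermat.Agent.AVn

namespace Fermat.Agent.AVD4

/-- algebraically independent elements of `F₀` stay so over `M` in `M·F₀` -/
theorem algebraicIndependent_BC {K M F₀ Ma : Type*} [Field K] [Field M] [Field F₀] [Field Ma]
    [Algebra K M] [Algebra K F₀] [Algebra M Ma] [Algebra F₀ Ma] [Algebra K Ma]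
    [IsScalarTower K M Ma] [IsScalarTower K F₀ Ma] [BC K M F₀ Ma] {ι : Type*} {t : ι → F₀}
    (ht : AlgebraicIndependent K t) : AlgebraicIndependent M (fun i => algebraMap F₀ Ma (t i)) := by
  have h1 : LinearIndependent K (fun m : ι →₀ ℕ => (MvPolynomial.aeval t
      (MvPolynomial.monomial m (1 : K)) : F₀)) := by
    have h0 := (MvPolynomial.basisMonomials ι K).linearIndependent
    have := h0.map' (MvPolynomial.aeval t : MvPolynomial ι K →ₐ[K] F₀).toLinearMap
      (LinearMap.ker_eq_bot.mpr ht)
    simpa [Function.comp_def] using this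
  have h2 := BC.linearIndependent (K₀ := K) (K := M) (F₀ := F₀) (F := Ma) h1
  let b := MvPolynomial.basisMonomials ι M
  let f : MvPolynomial ι M →ₗ[M] Ma :=
    (MvPolynomial.aeval (R := M) (fun i => algebraMap F₀ Ma (t i))).toLinearMap
  have hfb : ∀ m, f (b m) = algebraMap F₀ Ma (MvPolynomial.aeval t
      (MvPolynomial.monomial m (1 : K)) : F₀) := by
    intro m
    simp only [f, b, MvPolynomial.coe_basisMonomials, AlgHom.toLinearMap_apply]
    rw [MvPolynomial.aeval_monomial, MvPolynomial.aeval_monomial, map_one, map_one, one_mul,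
      one_mul]
    simp [Finsupp.prod]
  have h3 : LinearIndependent M (f ∘ b) := by
    convert h2 using 1
    funext m
    exact hfb m
  have h4 : Function.Injective f := by
    rw [← LinearMap.ker_eq_bot, LinearMap.ker_eq_bot']
    intro p hp
    have h5 : Finsupp.linearCombination M (f ∘ b) (b.repr p) = 0 := by
      rw [← LinearMap.map_finsupp_linearCombination, b.linearCombination_repr, hp]
    have h6 : b.repr p = 0 := h3 (by rw [h5, map_zero])
    simpa using h6
  exact h4

variable {K : Type u} [Field K] {g : ℕ} (A : AVar K g)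

/-- `trdeg_k k(a) = g` -/
theorem trdeg_ka (k M : Type u) {Ma : Type u} [Field k] [Field M] [Field Ma]
    [Algebra K k] [Algebra k M] [Algebra K M] [IsScalarTower K k M]
    [Algebra M Ma] [Algebra A.F Ma] [Algebra K Ma] [IsScalarTower K M Ma] [IsScalarTower K A.F Ma]
    [BC K M A.F Ma] [Algebra k Ma] [IsScalarTower k M Ma] :
    Algebra.trdeg k (adjoin k (Set.range (algebraMap A.F Ma))) = g := by
  have hKkMa : IsScalarTower K k Ma := IsScalarTower.of_algebraMap_eq fun c => by
    rw [IsScalarTower.algebraMap_apply k M Ma, ← IsScalarTower.algebraMap_apply K k M,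
      ← IsScalarTower.algebraMap_apply K M Ma]
  obtain ⟨ι, x, hx⟩ := exists_isTranscendenceBasis' K A.F
  have hι : #ι = g := by rw [hx.cardinalMk_eq_trdeg, A.trdeg_F]
  set L : IntermediateField k Ma := adjoin k (Set.range (algebraMap A.F Ma)) with hLd
  have hFL : ∀ z : A.F, algebraMap A.F Ma z ∈ L := fun z => subset_adjoin k _ ⟨z, rfl⟩
  apply le_antisymm
  · let s : Set Ma := Set.range (fun i => algebraMap A.F Ma (x i))
    have hs : #s ≤ g := by
      rw [← hι]
      exact mk_range_le
    refine le_trans (AVFin.trdeg_le_of_algebraic s L fun z hz => ?_) hs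
    let N := algebraicClosure (adjoin k s) Ma
    have hN : L ≤ N.restrictScalars k := by
      rw [hLd, adjoin_le_iff]
      rintro _ ⟨z, rfl⟩
      show algebraMap A.F Ma z ∈ N
      rw [mem_algebraicClosure_iff]
      have h1 : IsAlgebraic (Algebra.adjoin K (Set.range x)) z := hx.isAlgebraic.isAlgebraic z
      have hmem : ∀ w : Algebra.adjoin K (Set.range x),
          algebraMap A.F Ma (w : A.F) ∈ adjoin k s := by
        intro w
        have h2 : Algebra.adjoin K (Set.range x) ≤
            (((adjoin k s).restrictScalars K).comap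
              (IsScalarTower.toAlgHom K A.F Ma)).toSubalgebra := by
          rw [Algebra.adjoin_le_iff]
          rintro _ ⟨i, rfl⟩
          exact subset_adjoin k s ⟨i, rfl⟩
        exact h2 w.2
      let f : Algebra.adjoin K (Set.range x) →+* adjoin k s :=
        { toFun := fun w => ⟨algebraMap A.F Ma w, hmem w⟩
          map_one' := Subtype.ext (by simp)
          map_mul' := fun a b => Subtype.ext (by simp)
          map_zero' := Subtype.ext (by simp)
          map_add' := fun a b => Subtype.ext (by simp) }
      refine h1.ringHom_of_comp_eq f (algebraMap A.F Ma) (fun a b hab => ?_) ?_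
      · apply Subtype.ext
        exact (algebraMap A.F Ma).injective (congrArg Subtype.val hab)
      · ext w; rfl
    rw [← mem_algebraicClosure_iff]
    exact hN hz
  · have h1 : AlgebraicIndependent M (fun i => algebraMap A.F Ma (x i)) :=
      algebraicIndependent_BC (K := K) (M := M) (F₀ := A.F) (Ma := Ma) hx.1
    have h2 : AlgebraicIndependent k (fun i => algebraMap A.F Ma (x i)) :=
      h1.restrictScalars (algebraMap k M).injective
    have h3 : AlgebraicIndependent k (fun i => (⟨algebraMap A.F Ma (x i), hFL _⟩ : L)) :=
      AlgebraicIndependent.of_comp L.val h2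
    rw [← hι]
    exact h3.cardinalMk_le_trdeg

end Fermat.Agent.AVD4
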