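import Fermat.Agent.AVD4.Common3
import Fermat.Agent.AVD4.Htr
import Fermat.Agent.AVFin.LemmaZ

/-!
# S26 (kb 66), block D: a valuation ring of `M(a)` containing `k(a)(Φ)` is the Gauss extension of
its trace on `M`.
-/

set_option autoImplicit false
set_option linter.style.haveILetI false

noncomputable section

universe u

open IntermediateField Module
open Fermat.Agent.BaseChangeFF Fermat.Agent.AVG Fermat.Agent.AVn Fermat.Agent.FunField

namespace Fermat.Agent.AVD4

/-- algebra structure on a valuation ring containing the constants -/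
@[reducible] def algOfMem {R F : Type*} [CommRing R] [Field F] [Algebra R F]
    (V : ValuationSubring F) (h : ∀ c : R, algebraMap R F c ∈ V) : Algebra R V :=
  ((algebraMap R F).codRestrict V.toSubring h).toAlgebra

variable {K : Type u} [Field K] {g : ℕ} (A : AVar K g)

variable {k E M Ma : Type u} (Ea : Type u) [Field k] [IsAlgClosed k] [Field E] [Field M]
  [Field Ma] [Field Ea]
  [Algebra K k] [Algebra k E] [Algebra K E] [IsScalarTower K k E]
  [Algebra k M] [Algebra K M] [IsScalarTower K k M]
  [Algebra M Ma] [Algebra A.F Ma] [Algebra K Ma] [IsScalarTower K M Ma] [IsScalarTower K A.F Ma]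
  [BC K M A.F Ma] [Algebra k Ma] [IsScalarTower k M Ma]
  [Algebra E Ea] [Algebra A.F Ea] [Algebra K Ea] [IsScalarTower K E Ea] [IsScalarTower K A.F Ea]
  [BC K E A.F Ea]

/-- A valuation ring `V` of `M(a)` containing `k(a)(Φ)`, with `Φ` transcendental over `k(a)`, is the
Gauss extension of `V ∩ M` if the residue field of the latter is a function field of one variable
over `k`. -/
theorem eq_O_of_comap {u : E} (hu : Transcendental k u) [FiniteDimensional k⟮u⟯ E]
    (𝔯 : RDk K M E)
    (hk : ∀ c : k, ∃ h : algebraMap k M c ∈ 𝔯.A, 𝔯.π ⟨_, h⟩ = algebraMap k E c)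
    (y : A.Pt M) (f : A.F) (V : ValuationSubring Ma)
    (hV : ∀ x ∈ A.kaf k Ma f (A.map (IsScalarTower.toAlgHom K M Ma) y), x ∈ V)
    (hΦ : Transcendental (adjoin k (Set.range (algebraMap A.F Ma)))
      (A.ev (A.map (IsScalarTower.toAlgHom K M Ma) y - A.gpt Ma) f))
    (hVM : V.comap (algebraMap M Ma) = 𝔯.A) : V = 𝔯.O A.F Ma Ea := by
  have hKkMa : IsScalarTower K k Ma := IsScalarTower.of_algebraMap_eq fun c => by
    rw [IsScalarTower.algebraMap_apply k M Ma, ← IsScalarTower.algebraMap_apply K k M,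
      ← IsScalarTower.algebraMap_apply K M Ma]
  have hL : ∀ x ∈ adjoin k (Set.range (algebraMap A.F Ma)), x ∈ V := fun x hx =>
    hV x (IntermediateField.adjoin.mono _ _ _ (Set.subset_insert _ _) hx)
  have hkV : ∀ c : k, algebraMap k Ma c ∈ V := fun c =>
    hL _ (IntermediateField.algebraMap_mem _ c)
  have hFV : ∀ c : A.F, algebraMap A.F Ma c ∈ V := fun c =>
    hL _ (IntermediateField.subset_adjoin _ _ ⟨c, rfl⟩)
  have hKV : ∀ c : K, algebraMap K Ma c ∈ V := fun c => by
    rw [IsScalarTower.algebraMap_apply K k Ma]; exact hkV _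
  letI : Algebra K V := algOfMem V hKV
  letI : Algebra k V := algOfMem V hkV
  letI : Algebra A.F V := algOfMem V hFV
  haveI : IsScalarTower K V Ma := IsScalarTower.of_algebraMap_eq fun _ => rfl
  haveI : IsScalarTower K k V := IsScalarTower.of_algebraMap_eq fun c =>
    Subtype.ext (IsScalarTower.algebraMap_apply K k Ma c)
  haveI : IsScalarTower K A.F V := IsScalarTower.of_algebraMap_eq fun c =>
    Subtype.ext (IsScalarTower.algebraMap_apply K A.F Ma c)
  let T := IsLocalRing.ResidueField V
  letI : Algebra K T := ((IsLocalRing.residue V).comp (algebraMap K V)).toAlgebra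
  letI : Algebra k T := ((IsLocalRing.residue V).comp (algebraMap k V)).toAlgebra
  letI : Algebra A.F T := ((IsLocalRing.residue V).comp (algebraMap A.F V)).toAlgebra
  haveI : IsScalarTower K k T := IsScalarTower.of_algebraMap_eq fun c =>
    congrArg (IsLocalRing.residue V) (IsScalarTower.algebraMap_apply K k V c)
  haveI : IsScalarTower K A.F T := IsScalarTower.of_algebraMap_eq fun c =>
    congrArg (IsLocalRing.residue V) (IsScalarTower.algebraMap_apply K A.F V c)
  let ρ : V →ₐ[K] T := { IsLocalRing.residue V with commutes' := fun _ => rfl }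
  have hρ : ∀ x : V, ρ x = 0 ↔ ¬ IsUnit x := fun x => by
    show IsLocalRing.residue V x = 0 ↔ _
    rw [IsLocalRing.residue_eq_zero_iff, IsLocalRing.mem_maximalIdeal]
    rfl
  haveI : IsLocalHom ρ := ⟨fun x hx => by
    by_contra h
    exact hx.ne_zero ((hρ x).mpr h)⟩
  have hkA : ∀ c : k, algebraMap k M c ∈ 𝔯.A := fun c => (hk c).1
  have hkπ : ∀ c, 𝔯.π ⟨algebraMap k M c, hkA c⟩ = algebraMap k E c := fun c => (hk c).2
  refine eq_O_aux A Ea 𝔯 V hVM ρ hρ hkA hkπ hkV (fun _ => rfl) hFV (fun _ => rfl) hu y hL ?_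
  intro T' hT' htr halg
  exact AVFin.lemmaZ A (trdeg_ka A k M) V f _ hV hΦ ρ (fun _ _ => rfl) (fun _ _ => rfl)
    (A.map (inclA 𝔯 V hVM) (A.lft 𝔯 y)) (map_inclA_lft A 𝔯 V hVM y) T' htr
    (fun x hx => hT' hx) halg

end Fermat.Agent.AVD4
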