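import Fermat.Agent.AVD4.Poles

/-!
# S26 (kb 66), D4: every pole of `λ` is on the list
-/

set_option autoImplicit false
set_option linter.unusedSectionVars false
set_option linter.style.haveILetI false

noncomputable section

universe u

open Module IntermediateField
open Fermat.Agent.BaseChangeFF Fermat.Agent.AVG Fermat.Agent.AVn Fermat.Agent.FunField
open Fermat.Agent.AVDc Fermat.Agent.AVH

namespace Fermat.Agent.AVD4

variable {K : Type u} [Field K] {g : ℕ} (A : AVar K g)
  {k E M Ma : Type u} (Ea : Type u) [Field k] [IsAlgClosed k] [Field E] [Algebra K k]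
  [Algebra k E] [Algebra K E] [IsScalarTower K k E] [Field M] [Algebra k M] [Algebra E M]
  [Algebra (Cp E) M] [IsScalarTower k E M] [IsScalarTower k (Cp E) M] [Algebra K M]
  [IsScalarTower K k M] [IsScalarTower K E M] [IsScalarTower K (Cp E) M]
  [hBC : BC k E (Cp E) M] [IsFF k E]
  [Field Ma] [Field Ea]
  [Algebra M Ma] [Algebra A.F Ma] [Algebra K Ma] [IsScalarTower K M Ma] [IsScalarTower K A.F Ma]
  [BC K M A.F Ma] [Algebra k Ma] [IsScalarTower k M Ma]
  [Algebra E Ea] [Algebra A.F Ea] [Algebra K Ea] [IsScalarTower K E Ea] [IsScalarTower K A.F Ea]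
  [BC K E A.F Ea]

/-- **D4**: the valuation rings of `M(a)` containing `k(a)(Φ)` at which `λ` has a pole. -/
theorem exists_eq_rp {u : E} (hu : Transcendental k u) [FiniteDimensional k⟮u⟯ E] (P Q : A.Pt E)
    (f : A.F) {y : A.Pt M}
    (hy : y = A.map (IsScalarTower.toAlgHom K E M) P +
      A.map (IsScalarTower.toAlgHom K (Cp E) M) (A.map ((Cp.equiv K E).toAlgHom) Q))
    (V : ValuationSubring Ma)
    (hV : ∀ x ∈ A.kaf k Ma f (A.map (IsScalarTower.toAlgHom K M Ma) y), x ∈ V)
    (hΦ : Transcendental (adjoin k (Set.range (algebraMap A.F Ma)))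
      (A.ev (A.map (IsScalarTower.toAlgHom K M Ma) y - A.gpt Ma) f))
    (hlam : algebraMap M Ma (lamM M u) ∉ V) :
    ∃ i : InfPl k u × Bool, V = (rp K M i).O A.F Ma Ea := by
  have hKkMa : IsScalarTower K k Ma := IsScalarTower.of_algebraMap_eq fun c => by
    rw [IsScalarTower.algebraMap_apply k M Ma, ← IsScalarTower.algebraMap_apply K k M,
      ← IsScalarTower.algebraMap_apply K M Ma]
  let j₁ : E →ₐ[k] Ma := (IsScalarTower.toAlgHom k M Ma).comp (i1 k E M)
  let j₂ : E →ₐ[k] Ma := (IsScalarTower.toAlgHom k M Ma).comp (i2 k E M)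
  have hy' : A.map (IsScalarTower.toAlgHom K M Ma) y =
      A.map (j₁.restrictScalars K) P + A.map (j₂.restrictScalars K) Q := by
    rw [hy, A.map_add, ← A.map_comp, ← A.map_comp, ← A.map_comp]
    rfl
  have htt := AVD3.top_or_top A (trdeg_ka A k M) j₁ j₂ P Q f V hy' hV hΦ
  have hk : ∀ c : k, algebraMap k Ma c ∈ V := fun c =>
    hV _ (IntermediateField.algebraMap_mem _ c)
  let W : ValuationSubring M := V.comap (algebraMap M Ma)
  have hlam' : j₁ u - j₂ u ∉ V := by
    have : j₁ u - j₂ u = algebraMap M Ma (lamM M u) := by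
      rw [lamM, _root_.map_sub]
      rfl
    rw [this]
    exact hlam
  rcases AVD3.poles_mem V j₁ j₂ htt hlam' with ⟨h1, h2⟩ | ⟨h2, h1⟩
  · -- `E₁ ⊂ V`, pole at the second copy
    obtain ⟨p, hp⟩ := exists_infPl (k := k) (u := u) (V.comap (j₂ : E →+* Ma))
      (fun c => by
        show j₂ (algebraMap k E c) ∈ V
        rw [j₂.commutes]
        exact hk c) h2
    refine ⟨(p, false), ?_⟩
    refine eq_O_of_comap A Ea hu (rp K M (p, false)) (rp_lin _) y f V hV hΦ ?_
    refine eq_rp_false p W (fun x => ?_) (fun x => h1 x)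
    rw [hp]
    exact Iff.rfl
  · obtain ⟨p, hp⟩ := exists_infPl (k := k) (u := u) (V.comap (j₁ : E →+* Ma))
      (fun c => by
        show j₁ (algebraMap k E c) ∈ V
        rw [j₁.commutes]
        exact hk c) h1
    refine ⟨(p, true), ?_⟩
    refine eq_O_of_comap A Ea hu (rp K M (p, true)) (rp_lin _) y f V hV hΦ ?_
    refine eq_rp_true p W (fun x => ?_) (fun x => h2 (x : E))
    rw [hp]
    exact Iff.rfl

end Fermat.Agent.AVD4
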