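import Fermat.Agent.AVn.Red
import Fermat.Agent.AVG.Disc
import Fermat.Agent.AVb0.Fields
import Fermat.Agent.AVn.B1

/-!
# S26 (kb 66), block D: common lemmas for the zeros and the poles of `λ`
-/

set_option autoImplicit false

noncomputable section

universe u

open IntermediateField Module
open Fermat.Agent.BaseChangeFF Fermat.Agent.AVG Fermat.Agent.AVn Fermat.Agent.FunField

namespace Fermat.Agent.AVD4

section Field

variable {k E : Type*} [Field k] [Field E] [Algebra k E]

open scoped IntermediateField.algebraAdjoinAdjoin in
theorem isTransc_unit {u : E} (hu : Transcendental k u) [FiniteDimensional k⟮u⟯ E] :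
    IsTranscendenceBasis k (fun _ : PUnit.{1} => u) := by
  have h1 : AlgebraicIndependent k (fun _ : PUnit.{1} => u) := by
    rw [algebraicIndependent_unique_type_iff]
    exact hu
  rw [h1.isTranscendenceBasis_iff_isAlgebraic]
  have h2 : Set.range (fun _ : PUnit.{1} => u) = {u} := by
    ext x; simp [eq_comm]
  rw [h2]
  have h3 : Algebra.IsAlgebraic k⟮u⟯ E := inferInstance
  exact (IsFractionRing.comap_isAlgebraic_iff (A := Algebra.adjoin k {u}) (K := k⟮u⟯)
    (C := E)).mpr h3

theorem isTransc_unit' {u : E} (hu : Transcendental k u) [FiniteDimensional k⟮u⟯ E] {e : E}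
    (he : Transcendental k e) : IsTranscendenceBasis k (fun _ : PUnit.{1} => e) := by
  have hFF : IsFF k E := ⟨⟨u, hu, inferInstance⟩⟩
  have : FiniteDimensional k⟮e⟯ E := finiteDimensional_adjoin_of_isFF (K := k) he
  exact isTransc_unit he

theorem trdeg_eq_one {u : E} (hu : Transcendental k u) [FiniteDimensional k⟮u⟯ E] :
    Algebra.trdeg k E = 1 := by
  have h := (isTransc_unit hu).lift_cardinalMk_eq_trdeg
  simpa using h.symm

end Field

section Lin

variable {K k E F₀ T : Type*} [Field K] [Field k] [IsAlgClosed k] [Field E] [Field F₀] [Field T]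
  [Algebra k E] [Algebra K F₀] [Algebra k T]

/-- linear disjointness in the residue field -/
theorem lin_of_transcendental (α : E →ₐ[k] T) (β : F₀ →+* T) {u : E} (hu : Transcendental k u)
    [FiniteDimensional k⟮u⟯ E]
    (hβ : ∀ (n : ℕ) (f : Fin n → F₀), LinearIndependent K f →
      LinearIndependent k (fun i => β (f i)))
    {e : E} (he : Transcendental (adjoin k (Set.range β)) (α e)) (n : ℕ) (f : Fin n → F₀)
    (hf : LinearIndependent K f) (c : Fin n → E) (hc : ∑ i, α (c i) * β (f i) = 0) : c = 0 := by
  set A : IntermediateField k T := adjoin k (Set.range β) with hA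
  set B : IntermediateField k T := α.fieldRange with hB
  have he' : Transcendental k e := by
    intro h
    apply he
    have h1 : IsAlgebraic k (α e) := h.algHom α
    exact h1.tower_top (L := A)
  let eB : E ≃ₐ[k] B := AlgEquiv.ofInjectiveField α
  have ht : IsTranscendenceBasis k (fun _ : PUnit.{1} => eB e) :=
    eB.isTranscendenceBasis (isTransc_unit' hu he')
  have hAi : AlgebraicIndependent A (fun _ : PUnit.{1} => ((eB e : B) : T)) := by
    rw [algebraicIndependent_unique_type_iff]
    exact he
  have hLD : A.LinearDisjoint B := AVb0.linearDisjoint_of_algebraicIndependent ht hAi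
  have hfA : ∀ i, β (f i) ∈ A := fun i => subset_adjoin k _ ⟨_, rfl⟩
  have h1 : LinearIndependent k (fun i => (⟨β (f i), hfA i⟩ : A)) := by
    have h2 := hβ n f hf
    exact LinearIndependent.of_comp A.val.toLinearMap h2
  have h3 := hLD.linearIndependent_left h1
  rw [Fintype.linearIndependent_iff] at h3
  have h4 := h3 (fun i => eB (c i)) (by
    rw [← hc]
    refine Finset.sum_congr rfl fun i _ => ?_
    rw [Algebra.smul_def]
    rfl)
  funext i
  exact eB.injective (by rw [h4 i, Pi.zero_apply, map_zero])

end Lin

end Fermat.Agent.AVD4
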