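import Fermat.Agent.AVD4.Common
import Fermat.Agent.AVb.Fd

set_option autoImplicit false

noncomputable section

universe u

open IntermediateField Module
open Fermat.Agent.BaseChangeFF Fermat.Agent.AVG Fermat.Agent.AVn Fermat.Agent.FunField

namespace Fermat.Agent.AVD4

section Alpha

variable {K E M Ma T : Type*} [Field K] [Field E] [Field M] [Field Ma] [Field T]
  [Algebra K E] [Algebra K M] [Algebra M Ma]
  (𝔯 : RDk K M E) (V : ValuationSubring Ma) (hVM : V.comap (algebraMap M Ma) = 𝔯.A)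
  (ρ : V →+* T) (hρ : ∀ x : V, ρ x = 0 ↔ ¬ IsUnit x)

include hVM in
theorem mem_of_memA (a : M) (ha : a ∈ 𝔯.A) : algebraMap M Ma a ∈ V := by
  rw [← hVM] at ha
  exact ha

/-- inclusion of `A` in `V` -/
def incl : 𝔯.A →+* V where
  toFun a := ⟨algebraMap M Ma a, mem_of_memA 𝔯 V hVM a a.2⟩
  map_one' := Subtype.ext (by simp)
  map_mul' a b := Subtype.ext (by simp)
  map_zero' := Subtype.ext (by simp)
  map_add' a b := Subtype.ext (by simp)

theorem coe_incl (a : 𝔯.A) : ((incl 𝔯 V hVM a : V) : Ma) = algebraMap M Ma (a : M) := rfl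

theorem isUnit_incl_iff (a : 𝔯.A) : IsUnit (incl 𝔯 V hVM a) ↔ IsUnit a := by
  refine ⟨fun h => ?_, fun h => h.map _⟩
  by_cases ha0 : (a : M) = 0
  · exfalso
    have : a = 0 := Subtype.ext ha0
    rw [this, map_zero] at h
    exact not_isUnit_zero h
  obtain ⟨b, hb⟩ := h.exists_right_inv
  have h1 : algebraMap M Ma (a : M) * (b : Ma) = 1 := congrArg Subtype.val hb
  have h2 : (b : Ma) = algebraMap M Ma (a : M)⁻¹ := by
    rw [map_inv₀]
    exact eq_inv_of_mul_eq_one_right h1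
  have h30 : (a : M)⁻¹ ∈ V.comap (algebraMap M Ma) := by
    show algebraMap M Ma (a : M)⁻¹ ∈ V
    rw [← h2]
    exact b.2
  have h3 : (a : M)⁻¹ ∈ 𝔯.A := (SetLike.ext_iff.mp hVM _).mp h30
  exact isUnit_iff_exists_inv.mpr ⟨⟨_, h3⟩, Subtype.ext (mul_inv_cancel₀ ha0)⟩

include hρ in
theorem ker_le : RingHom.ker 𝔯.π ≤ RingHom.ker (ρ.comp (incl 𝔯 V hVM)) := by
  intro a ha
  rw [RingHom.mem_ker] at ha ⊢
  rw [RingHom.comp_apply, hρ, isUnit_incl_iff]
  exact (𝔯.ker a).mp ha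

/-- the induced map of residue fields -/
def alpha : E →+* T := RingHom.liftOfSurjective 𝔯.π 𝔯.surj
  ⟨ρ.comp (incl 𝔯 V hVM), ker_le 𝔯 V hVM ρ hρ⟩

theorem alpha_π (a : 𝔯.A) : alpha 𝔯 V hVM ρ hρ (𝔯.π a) = ρ (incl 𝔯 V hVM a) :=
  RingHom.liftOfRightInverse_comp_apply _ _ _ ⟨ρ.comp (incl 𝔯 V hVM), ker_le 𝔯 V hVM ρ hρ⟩ a

end Alpha

section Lift

variable {K : Type u} [Field K] {g : ℕ} (A : AVar K g)
  {E M Ma T : Type u} [Field E] [Field M] [Field Ma] [Field T]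
  [Algebra K E] [Algebra K M] [Algebra M Ma] [Algebra K Ma] [IsScalarTower K M Ma] [Algebra K T]
  (𝔯 : RDk K M E) (V : ValuationSubring Ma) (hVM : V.comap (algebraMap M Ma) = 𝔯.A)
  [Algebra K V] [IsScalarTower K V Ma]
  (ρ : V →ₐ[K] T) (hρ : ∀ x : V, ρ x = 0 ↔ ¬ IsUnit x)

/-- inclusion of `A` in `V` as an algebra map -/
def inclA : 𝔯.A →ₐ[K] V where
  toRingHom := incl 𝔯 V hVM
  commutes' c := Subtype.ext (by
    show algebraMap M Ma (algebraMap K M c) = (algebraMap K V c : V)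
    rw [← IsScalarTower.algebraMap_apply, IsScalarTower.algebraMap_apply K V Ma]
    rfl)

/-- `α` as an algebra map -/
def alphaA : E →ₐ[K] T where
  toRingHom := alpha 𝔯 V hVM (ρ : V →+* T) hρ
  commutes' c :=
    (congrArg (alpha 𝔯 V hVM (ρ : V →+* T) hρ) (𝔯.π_alg c)).symm.trans
      ((alpha_π 𝔯 V hVM (ρ : V →+* T) hρ (algebraMap K 𝔯.A c)).trans
        ((congrArg ρ ((inclA 𝔯 V hVM).commutes c)).trans (ρ.commutes c)))

theorem map_inclA_lft (y : A.Pt M) :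
    A.map (IsScalarTower.toAlgHom K V Ma) (A.map (inclA 𝔯 V hVM) (A.lft 𝔯 y)) =
      A.map (IsScalarTower.toAlgHom K M Ma) y := by
  rw [← A.map_comp]
  have : (IsScalarTower.toAlgHom K V Ma).comp (inclA 𝔯 V hVM) =
      (IsScalarTower.toAlgHom K M Ma).comp (IsScalarTower.toAlgHom K 𝔯.A M) := by
    ext a; rfl
  rw [this, A.map_comp, A.map_lft]

theorem map_ρ_lft (y : A.Pt M) :
    A.map ρ (A.map (inclA 𝔯 V hVM) (A.lft 𝔯 y)) =
      A.map (alphaA 𝔯 V hVM ρ hρ) (A.red 𝔯 y) := by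
  rw [A.red_apply, ← A.map_comp, ← A.map_comp]
  congr 1
  ext a
  exact (alpha_π 𝔯 V hVM (ρ : V →+* T) hρ a).symm

theorem fd_map_ρ_lft_le (y : A.Pt M) :
    A.fd (A.map ρ (A.map (inclA 𝔯 V hVM) (A.lft 𝔯 y))) ≤ (alphaA 𝔯 V hVM ρ hρ).fieldRange := by
  rw [map_ρ_lft A 𝔯 V hVM ρ hρ, A.fd_map]
  exact (map_mono _ le_top).trans (by rw [← AlgHom.fieldRange_eq_map])

end Lift

end Fermat.Agent.AVD4
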