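import Fermat.Agent.AVD4.Common2

set_option autoImplicit false

noncomputable section

universe u

open IntermediateField Module
open Fermat.Agent.BaseChangeFF Fermat.Agent.AVG Fermat.Agent.AVn Fermat.Agent.FunField

namespace Fermat.Agent.AVD4

variable {K : Type u} [Field K] {g : ℕ} (A : AVar K g)

/-- the residue map on `k(a)` is injective -/
theorem lin_beta (M : Type u) {k Ma T : Type u} [Field k] [Field M] [Field Ma] [Field T]
    [Algebra K k] [Algebra k M] [Algebra K M] [IsScalarTower K k M]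
    [Algebra M Ma] [Algebra A.F Ma] [Algebra K Ma] [IsScalarTower K M Ma] [IsScalarTower K A.F Ma]
    [BC K M A.F Ma] [Algebra k Ma] [IsScalarTower k M Ma]
    [Algebra k T] [Algebra A.F T] (V : ValuationSubring Ma) (ρ : V →+* T)
    (n : ℕ) (f : Fin n → A.F) (hf : LinearIndependent K f)
    (hL : ∀ x ∈ adjoin k (Set.range (algebraMap A.F Ma)), x ∈ V)
    (hk : ∀ c : k, algebraMap k Ma c ∈ V)
    (hρk : ∀ c : k, ρ ⟨algebraMap k Ma c, hk c⟩ = algebraMap k T c)
    (hF : ∀ x : A.F, algebraMap A.F Ma x ∈ V)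
    (hρF : ∀ x : A.F, ρ ⟨algebraMap A.F Ma x, hF x⟩ = algebraMap A.F T x) :
    LinearIndependent k (fun i => algebraMap A.F T (f i)) := by
  have h0 : LinearIndependent M (fun i => algebraMap A.F Ma (f i)) :=
    BC.lin (K₀ := K) n f hf
  have h1 : LinearIndependent k (fun i => algebraMap A.F Ma (f i)) := by
    refine h0.restrict_scalars ?_
    intro a b hab
    simpa [Algebra.smul_def] using hab
  set L : IntermediateField k Ma := adjoin k (Set.range (algebraMap A.F Ma)) with hLd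
  let iL : L →+* V :=
    { toFun := fun x => ⟨x, hL x x.2⟩
      map_one' := rfl
      map_mul' := fun _ _ => rfl
      map_zero' := rfl
      map_add' := fun _ _ => rfl }
  let σ : L →ₐ[k] T :=
    { toRingHom := (ρ : V →+* T).comp iL
      commutes' := fun c => hρk c }
  have h2 : LinearIndependent k (fun i => (⟨algebraMap A.F Ma (f i),
      subset_adjoin k _ ⟨_, rfl⟩⟩ : L)) :=
    LinearIndependent.of_comp L.val.toLinearMap h1
  have h3 := h2.map' σ.toLinearMap (LinearMap.ker_eq_bot.mpr σ.injective)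
  have h4 : (fun i => algebraMap A.F T (f i)) = σ.toLinearMap ∘ (fun i =>
      (⟨algebraMap A.F Ma (f i), subset_adjoin k _ ⟨_, rfl⟩⟩ : L)) := by
    funext i
    exact (hρF (f i)).symm
  rw [h4]
  exact h3

section Aux

variable {k E M Ma : Type u} (Ea : Type u) {T : Type u} [Field k] [IsAlgClosed k] [Field E] [Field M]
  [Field Ma] [Field Ea] [Field T]
  [Algebra K k] [Algebra k E] [Algebra K E] [IsScalarTower K k E]
  [Algebra k M] [Algebra K M] [IsScalarTower K k M]
  [Algebra M Ma] [Algebra A.F Ma] [Algebra K Ma] [IsScalarTower K M Ma] [IsScalarTower K A.F Ma]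
  [BC K M A.F Ma] [Algebra k Ma] [IsScalarTower k M Ma]
  [Algebra E Ea] [Algebra A.F Ea] [Algebra K Ea] [IsScalarTower K E Ea] [IsScalarTower K A.F Ea]
  [BC K E A.F Ea]
  [Algebra K T] [Algebra k T] [IsScalarTower K k T] [Algebra A.F T]
  (𝔯 : RDk K M E) (V : ValuationSubring Ma) (hVM : V.comap (algebraMap M Ma) = 𝔯.A)
  [Algebra K V] [IsScalarTower K V Ma]
  (ρ : V →ₐ[K] T) (hρ : ∀ x : V, ρ x = 0 ↔ ¬ IsUnit x)
  (hkA : ∀ c : k, algebraMap k M c ∈ 𝔯.A)
  (hkπ : ∀ c, 𝔯.π ⟨algebraMap k M c, hkA c⟩ = algebraMap k E c)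
  (hk : ∀ c : k, algebraMap k Ma c ∈ V)
  (hρk : ∀ c : k, ρ ⟨algebraMap k Ma c, hk c⟩ = algebraMap k T c)
  (hF : ∀ x : A.F, algebraMap A.F Ma x ∈ V)
  (hρF : ∀ x : A.F, ρ ⟨algebraMap A.F Ma x, hF x⟩ = algebraMap A.F T x)

/-- `α` is `k`-linear -/
def alphaK : E →ₐ[k] T where
  toRingHom := (alphaA 𝔯 V hVM ρ hρ : E →+* T)
  commutes' c := by
    have h1 := alpha_π 𝔯 V hVM (ρ : V →+* T) hρ ⟨algebraMap k M c, hkA c⟩
    have h2 : incl 𝔯 V hVM ⟨algebraMap k M c, hkA c⟩ = ⟨algebraMap k Ma c, hk c⟩ :=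
      Subtype.ext (IsScalarTower.algebraMap_apply k M Ma c).symm
    exact (congrArg (alpha 𝔯 V hVM (ρ : V →+* T) hρ) (hkπ c)).symm.trans
      (h1.trans ((congrArg ρ h2).trans (hρk c)))

include hkπ hρ hρk hρF in
theorem eq_O_aux {u : E} (hu : Transcendental k u) [FiniteDimensional k⟮u⟯ E] (y : A.Pt M)
    (hL : ∀ x ∈ adjoin k (Set.range (algebraMap A.F Ma)), x ∈ V)
    (hZ : ∀ T' : IntermediateField k T,
      (A.fd (A.map ρ (A.map (inclA 𝔯 V hVM) (A.lft 𝔯 y))) : Set T) ⊆ T' →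
      Algebra.trdeg k T' ≤ 1 →
      (∀ t ∈ T', IsAlgebraic (adjoin k (Set.range (algebraMap A.F T))) t) → False) :
    V = 𝔯.O A.F Ma Ea := by
  classical
  let α : E →ₐ[k] T := alphaK 𝔯 V hVM ρ hρ hkA hkπ hk hρk
  have hα : ∀ x, α x = alphaA 𝔯 V hVM ρ hρ x := fun _ => rfl
  -- some element of the image of `E` is transcendental over `k(a)`
  have hex : ∃ e : E, Transcendental (adjoin k (Set.range (algebraMap A.F T))) (α e) := by
    by_contra hcon
    push Not at hcon
    refine hZ α.fieldRange ?_ ?_ ?_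
    · intro t ht
      obtain ⟨e, he⟩ := fd_map_ρ_lft_le A 𝔯 V hVM ρ hρ y ht
      exact ⟨e, he⟩
    · have e1 : E ≃ₐ[k] α.fieldRange := AlgEquiv.ofInjectiveField α
      rw [← e1.trdeg_eq, trdeg_eq_one hu]
    · rintro t ⟨e, rfl⟩
      have := hcon e
      rw [Transcendental, not_not] at this
      exact this
  obtain ⟨e, he⟩ := hex
  have hlin := lin_of_transcendental (K := K) α (algebraMap A.F T) hu
    (fun n f hf => lin_beta A M V (ρ : V →+* T) n f hf hL hk hρk hF hρF) he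
  have hE : 𝔯.Ext (F₀ := A.F) (F := Ma) (ρ : V →+* T) (alpha 𝔯 V hVM (ρ : V →+* T) hρ)
      (algebraMap A.F T) :=
    { ker := hρ
      memA := fun a ha => mem_of_memA 𝔯 V hVM a ha
      memF := hF
      resA := fun a ha => (alpha_π 𝔯 V hVM (ρ : V →+* T) hρ ⟨a, ha⟩).symm
      resF := hρF
      lin := fun n f hf c hc => hlin n f hf c hc }
  exact hE.eq_O Ea

end Aux

end Fermat.Agent.AVD4
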