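import Fermat.Agent.AVD4.Sym
import Fermat.Agent.AVn.Red

/-!
# S26 (kb 66), D4: the Gauss extension of a place of the first factor, as valuation ring with
residue field the second factor
-/

set_option autoImplicit false
set_option linter.unusedSectionVars false

noncomputable section

universe u

open Module
open Fermat.Agent.BaseChangeFF Fermat.Agent.AVG Fermat.Agent.AVn

namespace Fermat.Agent.AVD4

section Gen

variable {k L F₀ M E : Type u} [Field k] [Field L] [Algebra k L] [Field F₀] [Algebra k F₀]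
  [Field M] [Algebra L M] [Algebra F₀ M] [Algebra k M] [IsScalarTower k L M]
  [IsScalarTower k F₀ M] [BC k L F₀ M] [Field E] [Algebra k E]
  (𝔭 : RDk k L k) (e : F₀ ≃ₐ[k] E)

variable (M) in
/-- the Gauss extension with residue field `F₀ = E` -/
def gx : RDk k M E where
  A := 𝔭.O F₀ M F₀
  π := (e : F₀ →+* E).comp 𝔭.res
  mem c := by
    rw [IsScalarTower.algebraMap_apply k F₀ M]
    exact 𝔭.algebraMap_mem_O _
  π_alg c := by
    have h := 𝔭.res_algebraMap' (F := M) (F₁ := F₀) (algebraMap k F₀ c)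
    have h2 : (⟨algebraMap F₀ M (algebraMap k F₀ c), 𝔭.algebraMap_mem_O _⟩ : 𝔭.O F₀ M F₀) =
        ⟨algebraMap k M c, by
          rw [IsScalarTower.algebraMap_apply k F₀ M]
          exact 𝔭.algebraMap_mem_O _⟩ :=
      Subtype.ext (IsScalarTower.algebraMap_apply k F₀ M c).symm
    rw [h2] at h
    show e (𝔭.res _) = _
    rw [h]
    exact e.commutes c
  surj := e.surjective.comp (𝔭.res_surj M F₀)
  ker a := by
    show e (𝔭.res a) = 0 ↔ _
    rw [map_eq_zero_iff _ e.injective]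
    exact 𝔭.res_ker M F₀ a

theorem gx_A : (gx M 𝔭 e).A = 𝔭.O F₀ M F₀ := rfl

theorem gx_memF (y : F₀) : algebraMap F₀ M y ∈ (gx M 𝔭 e).A := 𝔭.algebraMap_mem_O y

theorem gx_πF (y : F₀) : (gx M 𝔭 e).π ⟨algebraMap F₀ M y, gx_memF 𝔭 e y⟩ = e y :=
  congrArg e (𝔭.res_algebraMap' (F := M) (F₁ := F₀) y)

theorem gx_memL {a : L} (ha : a ∈ 𝔭.A) : algebraMap L M a ∈ (gx M 𝔭 e).A :=
  𝔭.algebraMap_mem_O_of_mem M F₀ ha

theorem gx_πL {a : L} (ha : a ∈ 𝔭.A) :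
    (gx M 𝔭 e).π ⟨algebraMap L M a, gx_memL 𝔭 e ha⟩ = algebraMap k E (𝔭.π ⟨a, ha⟩) := by
  have h := 𝔭.res_algebraMap_K (F₀ := F₀) M F₀ ha
  exact (congrArg e h).trans (e.commutes _)

theorem gx_mem_iff (a : L) : algebraMap L M a ∈ (gx M 𝔭 e).A ↔ a ∈ 𝔭.A := 𝔭.mem_iff M F₀ a

theorem gx_comap : (gx M 𝔭 e).A.comap (algebraMap L M) = 𝔭.A := by
  ext a
  exact gx_mem_iff 𝔭 e a

theorem gx_class (W : ValuationSubring M) (hW : W.comap (algebraMap L M) = 𝔭.A)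
    (hF : ∀ y : F₀, algebraMap F₀ M y ∈ W) : W = (gx M 𝔭 e).A :=
  eq_O_const 𝔭 W hW hF

theorem gx_isDVR [IsDiscreteValuationRing 𝔭.A] : IsDiscreteValuationRing (gx M 𝔭 e).A := by
  obtain ⟨ϖ, hϖ⟩ := IsDiscreteValuationRing.exists_irreducible 𝔭.A
  exact (𝔭.isDVR (F₀ := F₀) M F₀ hϖ).1

/-- the maximal ideal is generated by the uniformizer of `𝔭` -/
theorem gx_maximalIdeal [IsDiscreteValuationRing 𝔭.A] {ϖ : 𝔭.A} (hϖ : Irreducible ϖ) :
    IsLocalRing.maximalIdeal (gx M 𝔭 e).A =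
      Ideal.span {⟨algebraMap L M ϖ, gx_memL 𝔭 e ϖ.2⟩} := by
  obtain ⟨h1, h2⟩ := 𝔭.isDVR (F₀ := F₀) M F₀ hϖ
  exact h2.maximalIdeal_eq

/-- `(x⁻¹) = 𝔪 ^ n` is inherited, also for `x - z` with `z ∈ F₀`. -/
theorem gx_span [IsDiscreteValuationRing 𝔭.A] {x : L} (hx : x⁻¹ ∈ 𝔭.A) {n : ℕ} (hn : n ≠ 0)
    (hspan : Ideal.span {(⟨x⁻¹, hx⟩ : 𝔭.A)} = IsLocalRing.maximalIdeal 𝔭.A ^ n) (z : F₀) :
    ∃ h : (algebraMap L M x - algebraMap F₀ M z)⁻¹ ∈ (gx M 𝔭 e).A,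
      Ideal.span {(⟨_, h⟩ : (gx M 𝔭 e).A)} =
        IsLocalRing.maximalIdeal (gx M 𝔭 e).A ^ n := by
  obtain ⟨ϖ, hϖ⟩ := IsDiscreteValuationRing.exists_irreducible 𝔭.A
  let V : ValuationSubring M := (gx M 𝔭 e).A
  -- `x⁻¹` is not a unit
  have hx0 : x ≠ 0 := by
    rintro rfl
    have h1 : (⟨(0 : L)⁻¹, hx⟩ : 𝔭.A) = 0 := Subtype.ext inv_zero
    rw [h1, Ideal.span_singleton_zero] at hspan
    have h2 : (ϖ ^ n : 𝔭.A) ∈ (⊥ : Ideal 𝔭.A) := by
      rw [hspan]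
      exact Ideal.pow_mem_pow hϖ.not_isUnit n
    exact (pow_ne_zero n hϖ.ne_zero) ((Submodule.mem_bot _).mp h2)
  have hxM : algebraMap L M x ≠ 0 := by simpa using hx0
  have hspan' : Ideal.span {(⟨algebraMap L M x⁻¹, gx_memL 𝔭 e hx⟩ : V)} =
      IsLocalRing.maximalIdeal V ^ n := by
    rw [hϖ.maximalIdeal_eq, Ideal.span_singleton_pow, Ideal.span_singleton_eq_span_singleton]
      at hspan
    show Ideal.span {(⟨algebraMap L M x⁻¹, gx_memL 𝔭 e hx⟩ : (gx M 𝔭 e).A)} =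
      IsLocalRing.maximalIdeal (gx M 𝔭 e).A ^ n
    rw [gx_maximalIdeal 𝔭 e hϖ, Ideal.span_singleton_pow,
      Ideal.span_singleton_eq_span_singleton]
    obtain ⟨w, hw⟩ := hspan
    let j : 𝔭.A →+* (gx M 𝔭 e).A :=
      { toFun := fun a => ⟨algebraMap L M a, gx_memL 𝔭 e a.2⟩
        map_one' := Subtype.ext (by simp)
        map_mul' := fun a b => Subtype.ext (by simp)
        map_zero' := Subtype.ext (by simp)
        map_add' := fun a b => Subtype.ext (by simp) }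
    refine ⟨Units.map (j : 𝔭.A →* (gx M 𝔭 e).A) w, ?_⟩
    have h3 := congrArg j hw
    rw [map_mul, map_pow] at h3
    exact h3
  -- the maximal ideal contains `x⁻¹`
  have hnu : ¬ IsUnit (⟨algebraMap L M x⁻¹, gx_memL 𝔭 e hx⟩ : V) := by
    intro hu
    have h4 : Ideal.span {(⟨algebraMap L M x⁻¹, gx_memL 𝔭 e hx⟩ : V)} = ⊤ :=
      Ideal.span_singleton_eq_top.mpr hu
    rw [hspan'] at h4
    have h5 : IsLocalRing.maximalIdeal V ^ n ≤ IsLocalRing.maximalIdeal V :=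
      Ideal.pow_le_self hn
    rw [h4, top_le_iff] at h5
    exact (IsLocalRing.maximalIdeal.isMaximal V).ne_top h5
  -- the unit `1 - z x⁻¹`
  let w : V := 1 - ⟨algebraMap F₀ M z, gx_memF 𝔭 e z⟩ * ⟨algebraMap L M x⁻¹, gx_memL 𝔭 e hx⟩
  have hw : IsUnit w := by
    have h6 : (⟨algebraMap F₀ M z, gx_memF 𝔭 e z⟩ * ⟨algebraMap L M x⁻¹, gx_memL 𝔭 e hx⟩ : V) ∈
        IsLocalRing.maximalIdeal V := Ideal.mul_mem_left _ _ hnu
    by_contra hcon
    have h7 : w ∈ IsLocalRing.maximalIdeal V := hcon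
    have h8 := (IsLocalRing.maximalIdeal V).add_mem h7 h6
    rw [sub_add_cancel] at h8
    exact h8 isUnit_one
  obtain ⟨w', hw'⟩ := hw
  have hwM : ((w' : V) : M) = 1 - algebraMap F₀ M z * (algebraMap L M x)⁻¹ := by
    rw [hw']
    show (1 : M) - algebraMap F₀ M z * algebraMap L M x⁻¹ = _
    rw [map_inv₀]
  have hwi : ((w' : V) : M) * (((w'⁻¹ : Vˣ) : V) : M) = 1 := congrArg Subtype.val w'.mul_inv
  have hkey : (algebraMap L M x - algebraMap F₀ M z)⁻¹ =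
      algebraMap L M x⁻¹ * (((w'⁻¹ : Vˣ) : V) : M) := by
    have h9 : algebraMap L M x - algebraMap F₀ M z = algebraMap L M x * ((w' : V) : M) := by
      rw [hwM]
      field_simp
    rw [h9, mul_inv, map_inv₀]
    congr 1
    exact (eq_inv_of_mul_eq_one_right hwi).symm
  have hmem : (algebraMap L M x - algebraMap F₀ M z)⁻¹ ∈ V := by
    rw [hkey]
    exact V.mul_mem _ _ (gx_memL 𝔭 e hx) ((w'⁻¹ : Vˣ) : V).2
  refine ⟨hmem, ?_⟩
  rw [← hspan']
  have h10 : (⟨_, hmem⟩ : V) = ⟨algebraMap L M x⁻¹, gx_memL 𝔭 e hx⟩ * ((w'⁻¹ : Vˣ) : V) :=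
    Subtype.ext hkey
  rw [h10]
  exact Ideal.span_singleton_mul_right_unit (Units.isUnit _) _

end Gen

section ResK

variable {K k L κ : Type u} [Field K] [Field k] [Algebra K k] [Field L] [Algebra k L] [Algebra K L]
  [IsScalarTower K k L] [Field κ] [Algebra k κ] [Algebra K κ] [IsScalarTower K k κ]

variable (K) in
/-- restriction of the base field -/
def resK (𝔭 : RDk k L κ) : RDk K L κ where
  A := 𝔭.A
  π := 𝔭.π
  mem c := by
    rw [IsScalarTower.algebraMap_apply K k L]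
    exact 𝔭.mem _
  π_alg c := by
    have h := 𝔭.π_alg (algebraMap K k c)
    rw [← IsScalarTower.algebraMap_apply K k κ] at h
    rw [← h]
    congr 1
    exact Subtype.ext (IsScalarTower.algebraMap_apply K k L c)
  surj := 𝔭.surj
  ker := 𝔭.ker

end ResK

section Red

variable {K : Type u} [Field K] {g : ℕ} (A : AVar K g)
  {k L F₀ M E : Type u} [Field k] [Algebra K k] [Field L] [Algebra k L] [Algebra K L]
  [IsScalarTower K k L] [Field F₀] [Algebra k F₀] [Algebra K F₀] [IsScalarTower K k F₀]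
  [Field M] [Algebra L M] [Algebra F₀ M] [Algebra k M] [IsScalarTower k L M]
  [IsScalarTower k F₀ M] [Algebra K M] [IsScalarTower K k M] [IsScalarTower K L M]
  [IsScalarTower K F₀ M] [BC k L F₀ M] [Field E] [Algebra k E] [Algebra K E] [IsScalarTower K k E]
  (𝔭 : RDk k L k) (e : F₀ ≃ₐ[k] E)

theorem red_gx_L (P : A.Pt L) :
    A.red (resK K (gx M 𝔭 e)) (A.map (IsScalarTower.toAlgHom K L M) P) =
      A.map (IsScalarTower.toAlgHom K k E) (A.red (resK K 𝔭) P) :=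
  A.red_map (resK K (gx M 𝔭 e)) (resK K 𝔭) (IsScalarTower.toAlgHom K L M)
    (IsScalarTower.toAlgHom K k E) (fun x => ⟨gx_memL 𝔭 e x.2, gx_πL 𝔭 e x.2⟩) P

theorem red_gx_F (Q : A.Pt F₀) :
    A.red (resK K (gx M 𝔭 e)) (A.map (IsScalarTower.toAlgHom K F₀ M) Q) =
      A.map ((e : F₀ →ₐ[k] E).restrictScalars K) Q :=
  A.red_map_field (resK K (gx M 𝔭 e)) (IsScalarTower.toAlgHom K F₀ M)
    ((e : F₀ →ₐ[k] E).restrictScalars K) (fun x => ⟨gx_memF 𝔭 e x, gx_πF 𝔭 e x⟩) Q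

end Red

end Fermat.Agent.AVD4
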