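import Fermat.Agent.AVD4.PoleGen
import Fermat.Agent.AVD4.EqO
import Fermat.Agent.AVD3.Top
import Fermat.Agent.AVD3.ZP
import Fermat.Agent.AVDc.Inf
import Fermat.Agent.AVH.BC

/-!
# S26 (kb 66), D4: the poles of `λ = u₁ - u₂`
-/

set_option autoImplicit false
set_option linter.unusedSectionVars false
set_option linter.style.haveILetI false

noncomputable section

universe u

open Module IntermediateField
open Fermat.Agent.BaseChangeFF Fermat.Agent.AVG Fermat.Agent.AVn Fermat.Agent.FunField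
open Fermat.Agent.AVDc Fermat.Agent.AVH

namespace Fermat.Agent.AVD4

section Rp

variable {K k E M : Type u} [Field K] [Field k] [IsAlgClosed k] [Field E] [Algebra K k]
  [Algebra k E] [Algebra K E] [IsScalarTower K k E] [Field M] [Algebra k M] [Algebra E M]
  [Algebra (Cp E) M] [IsScalarTower k E M] [IsScalarTower k (Cp E) M] [Algebra K M]
  [IsScalarTower K k M] [hBC : BC k E (Cp E) M] [IsFF k E]

/-- the same valuation ring on the second copy -/
def cpR (𝔭 : RDk k E k) : RDk k (Cp E) k := 𝔭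

variable (k E M) in
omit [IsAlgClosed k] [IsFF k E] in
theorem bc_cp : BC k (Cp E) E M := bc_symm k E (Cp E) M

variable (M) in
/-- pole of type 1, over `k` -/
def rpk1 (𝔭 : RDk k E k) : RDk k M E := gx M 𝔭 (Cp.equiv k E).symm

variable (M) in
/-- pole of type 2, over `k` -/
def rpk2 (𝔭 : RDk k E k) : RDk k M E :=
  letI := bc_cp k E M
  gx M (cpR 𝔭) (AlgEquiv.refl : E ≃ₐ[k] E)

variable (K M) in
/-- **the poles of `λ`** -/
def rp {u : E} (i : InfPl k u × Bool) : RDk K M E :=
  bif i.2 then resK K (rpk1 M (rdP i.1.1)) else resK K (rpk2 M (rdP i.1.1))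

theorem rp_true {u : E} (p : InfPl k u) :
    rp K M (p, true) = resK K (rpk1 M (rdP p.1)) := rfl

theorem rp_false {u : E} (p : InfPl k u) :
    rp K M (p, false) = resK K (rpk2 M (rdP p.1)) := rfl

theorem rp_lin {u : E} (i : InfPl k u × Bool) (c : k) :
    ∃ h : algebraMap k M c ∈ (rp K M i).A, (rp K M i).π ⟨_, h⟩ = algebraMap k E c := by
  obtain ⟨p, b⟩ := i
  cases b with
  | true => exact ⟨(rpk1 M (rdP p.1)).mem c, (rpk1 M (rdP p.1)).π_alg c⟩
  | false => exact ⟨(rpk2 M (rdP p.1)).mem c, (rpk2 M (rdP p.1)).π_alg c⟩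

instance rdP_isDVR (p : AlgebraicCurve.Place k E) : IsDiscreteValuationRing (rdP p).A :=
  inferInstanceAs (IsDiscreteValuationRing p.toValuationSubring)

instance rp_isDVR {u : E} (i : InfPl k u × Bool) : IsDiscreteValuationRing (rp K M i).A := by
  obtain ⟨p, b⟩ := i
  cases b with
  | true => exact gx_isDVR (M := M) (rdP p.1) (Cp.equiv k E).symm
  | false =>
    letI := bc_cp k E M
    haveI : IsDiscreteValuationRing (cpR (rdP p.1)).A := rdP_isDVR p.1
    exact gx_isDVR (M := M) (cpR (rdP p.1)) (AlgEquiv.refl : E ≃ₐ[k] E)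

/-- `(λ⁻¹) = 𝔪 ^ e(p)` -/
theorem rp_span {u : E} (i : InfPl k u × Bool) : ∃ h : (lamM M u)⁻¹ ∈ (rp K M i).A,
    Ideal.span {(⟨_, h⟩ : (rp K M i).A)} =
      IsLocalRing.maximalIdeal (rp K M i).A ^ eInf i.1 := by
  obtain ⟨p, b⟩ := i
  cases b with
  | true =>
    exact gx_span (M := M) (rdP p.1) (Cp.equiv k E).symm (x := u) (inv_mem p)
      (eInf_pos p).ne' (span_inv_eq p) (u : Cp E)
  | false =>
    letI := bc_cp k E M
    haveI : IsDiscreteValuationRing (cpR (rdP p.1)).A := rdP_isDVR p.1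
    obtain ⟨h1, h2⟩ := gx_span (M := M) (cpR (rdP p.1)) (AlgEquiv.refl : E ≃ₐ[k] E)
      (x := (u : Cp E)) (inv_mem p) (eInf_pos p).ne' (span_inv_eq p) u
    have h3 : (lamM M u)⁻¹ = -(algebraMap (Cp E) M (u : Cp E) - algebraMap E M u)⁻¹ := by
      rw [lamM, ← inv_neg, neg_sub]
    have h4 : (lamM M u)⁻¹ ∈ (rp K M (p, false)).A := by
      rw [h3]
      exact neg_mem h1
    refine ⟨h4, ?_⟩
    have h5 : (⟨(lamM M u)⁻¹, h4⟩ : (rp K M (p, false)).A) = -⟨_, h1⟩ := Subtype.ext h3
    rw [h5, Ideal.span_singleton_neg]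
    exact h2

theorem rp_true_mem₁ {u : E} (p : InfPl k u) (x : E) :
    algebraMap E M x ∈ (rp K M (p, true)).A ↔ x ∈ p.1.toValuationSubring :=
  gx_mem_iff (M := M) (rdP p.1) (Cp.equiv k E).symm x

theorem rp_true_mem₂ {u : E} (p : InfPl k u) (x : Cp E) :
    algebraMap (Cp E) M x ∈ (rp K M (p, true)).A :=
  gx_memF (M := M) (rdP p.1) (Cp.equiv k E).symm x

theorem rp_false_mem₁ {u : E} (p : InfPl k u) (x : E) :
    algebraMap E M x ∈ (rp K M (p, false)).A := by
  letI := bc_cp k E M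
  exact gx_memF (M := M) (cpR (rdP p.1)) (AlgEquiv.refl : E ≃ₐ[k] E) x

theorem rp_false_mem₂ {u : E} (p : InfPl k u) (x : E) :
    algebraMap (Cp E) M (x : Cp E) ∈ (rp K M (p, false)).A ↔ x ∈ p.1.toValuationSubring := by
  letI := bc_cp k E M
  exact gx_mem_iff (M := M) (cpR (rdP p.1)) (AlgEquiv.refl : E ≃ₐ[k] E) (x : Cp E)

variable (K M) in
theorem rp_injective (u : E) :
    Function.Injective (fun i : InfPl k u × Bool => (rp K M i).A) := by
  rintro ⟨p, b⟩ ⟨q, c⟩ h
  have h' : ∀ z : M, z ∈ (rp K M (p, b)).A ↔ z ∈ (rp K M (q, c)).A := fun z =>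
    SetLike.ext_iff.mp h z
  cases b with
  | true =>
    cases c with
    | true =>
      congr 1
      apply Subtype.ext
      apply AlgebraicCurve.Place.ext
      ext x
      exact (rp_true_mem₁ p x).symm.trans ((h' _).trans (rp_true_mem₁ q x))
    | false =>
      exfalso
      exact p.2 ((rp_true_mem₁ (K := K) (M := M) p u).mp ((h' _).mpr (rp_false_mem₁ q u)))
  | false =>
    cases c with
    | true =>
      exfalso
      exact q.2 ((rp_true_mem₁ (K := K) (M := M) q u).mp ((h' _).mp (rp_false_mem₁ p u)))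
    | false =>
      congr 1
      apply Subtype.ext
      apply AlgebraicCurve.Place.ext
      ext x
      exact (rp_false_mem₂ p x).symm.trans ((h' _).trans (rp_false_mem₂ q x))

/-- classification of the valuation rings of `M` -/
theorem eq_rp_true {u : E} (p : InfPl k u) (W : ValuationSubring M)
    (hW : ∀ x : E, algebraMap E M x ∈ W ↔ x ∈ p.1.toValuationSubring)
    (h₂ : ∀ x : Cp E, algebraMap (Cp E) M x ∈ W) : W = (rp K M (p, true)).A :=
  gx_class (M := M) (rdP p.1) (Cp.equiv k E).symm W (by ext x; exact hW x) h₂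

theorem eq_rp_false {u : E} (p : InfPl k u) (W : ValuationSubring M)
    (hW : ∀ x : E, algebraMap (Cp E) M (x : Cp E) ∈ W ↔ x ∈ p.1.toValuationSubring)
    (h₁ : ∀ x : E, algebraMap E M x ∈ W) : W = (rp K M (p, false)).A := by
  letI := bc_cp k E M
  exact gx_class (M := M) (cpR (rdP p.1)) (AlgEquiv.refl : E ≃ₐ[k] E) W
    (by ext x; exact hW x) h₁

end Rp

section Red

variable {K : Type u} [Field K] {g : ℕ} (A : AVar K g)
  {k E M : Type u} [Field k] [IsAlgClosed k] [Field E] [Algebra K k]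
  [Algebra k E] [Algebra K E] [IsScalarTower K k E] [Field M] [Algebra k M] [Algebra E M]
  [Algebra (Cp E) M] [IsScalarTower k E M] [IsScalarTower k (Cp E) M] [Algebra K M]
  [IsScalarTower K k M] [IsScalarTower K E M] [IsScalarTower K (Cp E) M]
  [hBC : BC k E (Cp E) M] [IsFF k E]

theorem red_rp_true {u : E} (p : InfPl k u) (P Q : A.Pt E) :
    A.red (rp K M (p, true)) (A.map (IsScalarTower.toAlgHom K E M) P +
      A.map (IsScalarTower.toAlgHom K (Cp E) M) (A.map ((Cp.equiv K E).toAlgHom) Q)) =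
      A.map (IsScalarTower.toAlgHom K k E) (A.red (resK K (rdP p.1)) P) + Q := by
  rw [map_add]
  congr 1
  · exact red_gx_L (M := M) A (rdP p.1) (Cp.equiv k E).symm P
  · rw [← A.map_comp]
    have h := A.red_map_field (rp K M (p, true)) ((IsScalarTower.toAlgHom K (Cp E) M).comp
      (Cp.equiv K E).toAlgHom) (AlgHom.id K E)
      (fun x => ⟨rp_true_mem₂ p (x : Cp E), gx_πF (M := M) (rdP p.1) (Cp.equiv k E).symm
        (x : Cp E)⟩) Q
    rw [h, A.map_id]

theorem red_rp_false {u : E} (p : InfPl k u) (P Q : A.Pt E) :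
    A.red (rp K M (p, false)) (A.map (IsScalarTower.toAlgHom K E M) P +
      A.map (IsScalarTower.toAlgHom K (Cp E) M) (A.map ((Cp.equiv K E).toAlgHom) Q)) =
      P + A.map (IsScalarTower.toAlgHom K k E) (A.red (resK K (rdP p.1)) Q) := by
  letI := bc_cp k E M
  rw [map_add]
  congr 1
  · have h := A.red_map_field (rp K M (p, false)) (IsScalarTower.toAlgHom K E M) (AlgHom.id K E)
      (fun x => ⟨rp_false_mem₁ p x, gx_πF (M := M) (cpR (rdP p.1))
        (AlgEquiv.refl : E ≃ₐ[k] E) x⟩) P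
    rw [h, A.map_id]
  · rw [← A.map_comp]
    refine A.red_map (rp K M (p, false)) (resK K (rdP p.1))
      ((IsScalarTower.toAlgHom K (Cp E) M).comp (Cp.equiv K E).toAlgHom)
      (IsScalarTower.toAlgHom K k E) (fun x => ?_) Q
    exact ⟨gx_memL (M := M) (cpR (rdP p.1)) (AlgEquiv.refl : E ≃ₐ[k] E) (a := ((x : E) : Cp E)) x.2,
      gx_πL (M := M) (cpR (rdP p.1)) (AlgEquiv.refl : E ≃ₐ[k] E) (a := ((x : E) : Cp E)) x.2⟩

end Red

end Fermat.Agent.AVD4
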