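import Fermat.Agent.AVG.Disc

/-!
# Base change of fields: symmetry, trivial base change, Gauss extensions with constant residues
-/

set_option autoImplicit false

noncomputable section

open Module
open Fermat.Agent.BaseChangeFF Fermat.Agent.AVG

namespace Fermat.Agent.AVD4

theorem bc_symm (K₀ K F₀ F : Type*) [Field K₀] [Field K] [Algebra K₀ K] [Field F₀] [Algebra K₀ F₀]
    [Field F] [Algebra K F] [Algebra F₀ F] [Algebra K₀ F] [IsScalarTower K₀ K F]
    [IsScalarTower K₀ F₀ F] [h : BC K₀ K F₀ F] : BC K₀ F₀ K F where
  lin n c hc := by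
    classical
    rw [Fintype.linearIndependent_iff]
    intro x hx
    let b := Module.Basis.ofVectorSpace K₀ F₀
    have hb : LinearIndependent K (fun j => algebraMap F₀ F (b j)) :=
      BC.linearIndependent (K₀ := K₀) b.linearIndependent
    -- the coefficients
    let s : Finset (Module.Basis.ofVectorSpaceIndex K₀ F₀) :=
      Finset.univ.biUnion fun i => (b.repr (x i)).support
    have hxs : ∀ i, x i = ∑ j ∈ s, b.repr (x i) j • b j := by
      intro i
      conv_lhs => rw [← b.linearCombination_repr (x i), Finsupp.linearCombination_apply,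
        Finsupp.sum]
      refine Finset.sum_subset (Finset.subset_biUnion_of_mem (fun i => (b.repr (x i)).support)
        (Finset.mem_univ i)) ?_
      intro j _ hj
      rw [Finsupp.notMem_support_iff.mp hj, zero_smul]
    have h1 : ∑ j ∈ s, (∑ i, algebraMap K₀ K (b.repr (x i) j) * c i) • algebraMap F₀ F (b j) = 0 := by
      rw [← hx]
      have h2 : ∀ i, x i • algebraMap K F (c i) =
          ∑ j ∈ s, (algebraMap K₀ K (b.repr (x i) j) * c i) • algebraMap F₀ F (b j) := by
        intro i
        rw [Algebra.smul_def]
        conv_lhs => rw [hxs i, map_sum, Finset.sum_mul]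
        refine Finset.sum_congr rfl fun j _ => ?_
        rw [Algebra.smul_def, Algebra.smul_def, map_mul, map_mul,
          ← IsScalarTower.algebraMap_apply K₀ K F, ← IsScalarTower.algebraMap_apply K₀ F₀ F]
        ring
      rw [Finset.sum_congr rfl fun i _ => h2 i, Finset.sum_comm]
      refine Finset.sum_congr rfl fun j _ => ?_
      rw [Finset.sum_smul]
    rw [linearIndependent_iff'] at hb
    have h3 := hb s _ h1
    have h4 : ∀ i, ∀ j ∈ s, b.repr (x i) j = 0 := by
      intro i j hj
      have h5 := h3 j hj
      rw [Fintype.linearIndependent_iff] at hc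
      exact hc (fun i => b.repr (x i) j) (by
        rw [← h5]
        refine Finset.sum_congr rfl fun i _ => ?_
        rw [Algebra.smul_def]) i
    intro i
    rw [hxs i]
    exact Finset.sum_eq_zero fun j hj => by rw [h4 i j hj, zero_smul]
  gen z := by
    have key : ∀ a ∈ Submodule.span K (Set.range (algebraMap F₀ F)),
        a ∈ Submodule.span F₀ (Set.range (algebraMap K F)) := by
      intro a ha
      have hmul : ∀ (c : K), ∀ a ∈ Submodule.span F₀ (Set.range (algebraMap K F)),
          algebraMap K F c * a ∈ Submodule.span F₀ (Set.range (algebraMap K F)) := by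
        intro c a ha
        induction ha using Submodule.span_induction with
        | mem x hx =>
          obtain ⟨d, rfl⟩ := hx
          rw [← map_mul]
          exact Submodule.subset_span ⟨_, rfl⟩
        | zero => rw [mul_zero]; exact Submodule.zero_mem _
        | add x y _ _ hx hy => rw [mul_add]; exact Submodule.add_mem _ hx hy
        | smul y x _ hx =>
          rw [Algebra.smul_def, mul_left_comm, ← Algebra.smul_def]
          exact Submodule.smul_mem _ _ hx
      induction ha using Submodule.span_induction with
      | mem x hx =>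
        obtain ⟨y, rfl⟩ := hx
        have : algebraMap F₀ F y = y • algebraMap K F 1 := by
          rw [map_one, Algebra.smul_def, mul_one]
        rw [this]
        exact Submodule.smul_mem _ _ (Submodule.subset_span ⟨_, rfl⟩)
      | zero => exact Submodule.zero_mem _
      | add x y _ _ hx hy => exact Submodule.add_mem _ hx hy
      | smul c x _ hx =>
        rw [Algebra.smul_def]
        exact hmul c x hx
    obtain ⟨a, b, ha, hb, hb0, hab⟩ := h.gen z
    exact ⟨a, b, key a ha, key b hb, hb0, hab⟩

instance bc_self (k F₀ : Type*) [Field k] [Field F₀] [Algebra k F₀] : BC k k F₀ F₀ where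
  lin n f hf := hf
  gen z := ⟨z, 1, Submodule.subset_span ⟨z, rfl⟩, Submodule.subset_span ⟨1, rfl⟩, one_ne_zero,
    mul_one z⟩

section Const

variable {k L F₀ M : Type*} [Field k] [Field L] [Algebra k L] [Field F₀] [Algebra k F₀]
  [Field M] [Algebra L M] [Algebra F₀ M] [Algebra k M] [IsScalarTower k L M]
  [IsScalarTower k F₀ M] [BC k L F₀ M] (𝔭 : RDk k L k)

/-- Uniqueness of the Gauss extension when the residue field is the constant field. -/
theorem eq_O_const (W : ValuationSubring M) (hW : W.comap (algebraMap L M) = 𝔭.A)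
    (hF : ∀ y : F₀, algebraMap F₀ M y ∈ W) : W = 𝔭.O F₀ M F₀ := by
  have hk : ∀ c : k, algebraMap k M c ∈ W := fun c => by
    rw [IsScalarTower.algebraMap_apply k F₀ M]; exact hF _
  let T := IsLocalRing.ResidueField W
  let ρ : W →+* T := IsLocalRing.residue W
  have hρ : ∀ x : W, ρ x = 0 ↔ ¬ IsUnit x := fun x => by
    show IsLocalRing.residue W x = 0 ↔ _
    rw [IsLocalRing.residue_eq_zero_iff, IsLocalRing.mem_maximalIdeal]
    rfl
  let ik : k →+* W := (algebraMap k M).codRestrict W.toSubring hk
  let iF : F₀ →+* W := (algebraMap F₀ M).codRestrict W.toSubring hF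
  let α : k →+* T := ρ.comp ik
  let β : F₀ →+* T := ρ.comp iF
  have hmemA : ∀ a ∈ 𝔭.A, algebraMap L M a ∈ W := fun a ha => by
    rw [← hW] at ha; exact ha
  have hiA : ∀ (a : L) (ha : a ∈ 𝔭.A), ρ ⟨algebraMap L M a, hmemA a ha⟩ = α (𝔭.π ⟨a, ha⟩) := by
    intro a ha
    -- `a - π(a)` is not a unit
    let c := 𝔭.π ⟨a, ha⟩
    have hd : 𝔭.π (⟨a, ha⟩ - ⟨algebraMap k L c, 𝔭.mem c⟩) = 0 := by
      rw [map_sub, 𝔭.π_alg]
      exact sub_self _
    rw [𝔭.ker] at hd
    have hd' : ρ (⟨algebraMap L M a, hmemA a ha⟩ - ik c) = 0 := by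
      rw [hρ]
      intro hu
      apply hd
      obtain ⟨⟨w, hw⟩, hw'⟩ := hu.exists_right_inv
      have h1 : (algebraMap L M a - algebraMap k M c) * w = 1 := congrArg Subtype.val hw'
      rw [IsScalarTower.algebraMap_apply k L M, ← map_sub] at h1
      have h2 : a - algebraMap k L c ≠ 0 := by
        intro h0
        rw [h0, map_zero, zero_mul] at h1
        exact zero_ne_one h1
      have h3 : w = algebraMap L M (a - algebraMap k L c)⁻¹ := by
        rw [map_inv₀]
        exact eq_inv_of_mul_eq_one_right h1
      have h4 : (a - algebraMap k L c)⁻¹ ∈ W.comap (algebraMap L M) := by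
        show algebraMap L M (a - algebraMap k L c)⁻¹ ∈ W
        rw [← h3]
        exact hw
      have h5 : (a - algebraMap k L c)⁻¹ ∈ 𝔭.A := (SetLike.ext_iff.mp hW _).mp h4
      exact isUnit_iff_exists_inv.mpr ⟨⟨_, h5⟩, Subtype.ext (mul_inv_cancel₀ h2)⟩
    rw [map_sub, sub_eq_zero] at hd'
    exact hd'
  have hE : 𝔭.Ext (F₀ := F₀) (F := M) ρ α β :=
    { ker := hρ
      memA := hmemA
      memF := hF
      resA := hiA
      resF := fun _ => rfl
      lin := by
        intro n f hf c hc
        have h1 : ∑ i, α (c i) * β (f i) = β (∑ i, c i • f i) := by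
          rw [map_sum]
          refine Finset.sum_congr rfl fun i _ => ?_
          rw [Algebra.smul_def, map_mul]
          congr 1
          show ρ (ik (c i)) = ρ (iF (algebraMap k F₀ (c i)))
          congr 1
          exact Subtype.ext (IsScalarTower.algebraMap_apply k F₀ M (c i))
        rw [h1, map_eq_zero] at hc
        rw [Fintype.linearIndependent_iff] at hf
        funext i
        exact hf c hc i }
  exact hE.eq_O F₀

end Const

end Fermat.Agent.AVD4
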